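import Mathlib.NumberTheory.NumberField.Cyclotomic.Basic

/-!
Interface between the descent proof of Fermat's equation for small regular exponents
(area `Regular`) and its two arithmetic inputs (area `RegularInputs`).
-/

set_option autoImplicit false

namespace FermatAgent.Regular

/-- Kummer's unit lemma for exponent `p` in the ring `R`: a unit congruent to a rational
integer modulo `p` is a `p`-th power of a unit. -/
def KummerUnitLemma (p : ℕ) (R : Type*) [CommRing R] : Prop :=
  ∀ u : Rˣ, (∃ n : ℤ, (p : R) ∣ (u : R) - (n : R)) → ∃ v : Rˣ, v ^ p = u

open NumberField in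
/-- The two inputs needed for exponent `p`, for the standard cyclotomic field. -/
def RegularInputs (p : ℕ) [NeZero p] : Prop :=
  IsPrincipalIdealRing (𝓞 (CyclotomicField p ℚ)) ∧
    KummerUnitLemma p (𝓞 (CyclotomicField p ℚ))

end FermatAgent.Regular
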