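import Mathlib
import Fermat.Agent.Regular.Interface

/-!
Kummer's descent for the second case of Fermat's equation, in an abstract ring with the
properties of the ring of integers of a cyclotomic field of prime level.
-/

set_option autoImplicit false

open Finset Polynomial
open scoped Classical
set_option linter.unusedSectionVars false

namespace FermatAgent.Regular

/-- The properties of `ζ` in the ring `R` used by the descent. -/
structure CycloData (p : ℕ) {R : Type*} [CommRing R] (ζ : R) : Prop where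
  prime : p.Prime
  odd : Odd p
  prim : IsPrimitiveRoot ζ p
  lam_prime : Prime (ζ - 1)
  residue : ∀ x : R, ∃ n : ℤ, ζ - 1 ∣ x - n
  int_dvd : ∀ n : ℤ, ζ - 1 ∣ (n : R) ↔ (p : ℤ) ∣ n
  assoc_p : Associated ((ζ - 1) ^ (p - 1)) (p : R)
  unit_lemma : KummerUnitLemma p R

variable {R : Type*} [CommRing R] [IsDomain R] {p : ℕ} {ζ : R}

namespace CycloData

lemma lam_dvd_p (D : CycloData p ζ) : ζ - 1 ∣ (p : R) :=
  (dvd_pow_self _ (by have := D.prime.two_le; omega)).trans D.assoc_p.dvd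

lemma p_dvd_lam_pow (D : CycloData p ζ) : (p : R) ∣ (ζ - 1) ^ p :=
  D.assoc_p.symm.dvd.trans (pow_dvd_pow _ (Nat.sub_le _ _))

lemma exists_pow_congr (D : CycloData p ζ) (x : R) :
    ∃ n : ℤ, ζ - 1 ∣ x - n ∧ (p : R) ∣ x ^ p - (n : R) ^ p := by
  obtain ⟨n, b, hb⟩ := D.residue x
  refine ⟨n, ⟨b, hb⟩, ?_⟩
  obtain ⟨r, hr⟩ := exists_add_pow_prime_eq D.prime (n : R) ((ζ - 1) * b)
  rw [← hb, add_sub_cancel] at hr
  rw [show x ^ p - (n : R) ^ p = ((x - n) ^ p) + p * n * (x - n) * r by linear_combination hr]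
  refine dvd_add ?_ ⟨n * (x - n) * r, by ring⟩
  rw [hb, mul_pow]
  exact D.p_dvd_lam_pow.mul_right _

lemma lam_dvd_pow_sub_self (D : CycloData p ζ) (x : R) : ζ - 1 ∣ x ^ p - x := by
  obtain ⟨n, h1, h2⟩ := D.exists_pow_congr x
  have h3 : (p : ℤ) ∣ n ^ p - n := by
    have : Fact p.Prime := ⟨D.prime⟩
    rw [← ZMod.intCast_zmod_eq_zero_iff_dvd]
    push_cast
    rw [ZMod.pow_card, sub_self]
  have h3' : ζ - 1 ∣ (n : R) ^ p - n := by
    have := (D.int_dvd _).mpr h3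
    push_cast at this
    exact this
  have := ((D.lam_dvd_p.trans h2).add h3').sub h1
  rwa [show x ^ p - (n : R) ^ p + ((n : R) ^ p - n) - (x - n) = x ^ p - x by ring] at this

lemma exists_lam_sq_dvd (D : CycloData p ζ) {x y : R} (hy : ¬ ζ - 1 ∣ y)
    (h : ζ - 1 ∣ x + y) : ∃ i : ℕ, (ζ - 1) ^ 2 ∣ x + ζ ^ i * y := by
  have : Fact p.Prime := ⟨D.prime⟩
  obtain ⟨w, hw⟩ := h
  obtain ⟨a, ha⟩ := D.residue w
  obtain ⟨b, hb⟩ := D.residue y
  have hb0 : (b : ZMod p) ≠ 0 := by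
    intro h0
    refine hy ?_
    have := hb.add ((D.int_dvd b).mpr ((ZMod.intCast_zmod_eq_zero_iff_dvd b p).mp h0))
    simpa using this
  refine ⟨((-(a : ZMod p)) / (b : ZMod p)).val, ?_⟩
  generalize hi : ((-(a : ZMod p)) / (b : ZMod p)).val = i
  have hd : (p : ℤ) ∣ a + i * b := by
    rw [← ZMod.intCast_zmod_eq_zero_iff_dvd]
    push_cast
    rw [← hi, ZMod.natCast_zmod_val, div_mul_cancel₀ _ hb0, add_neg_cancel]
  have hs : ζ - 1 ∣ (∑ j ∈ range i, ζ ^ j) - (i : R) := by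
    have : (i : R) = ∑ j ∈ range i, (1 : R) := by simp
    rw [this, ← Finset.sum_sub_distrib]
    exact Finset.dvd_sum fun j _ => sub_one_dvd_pow_sub_one ζ j
  have hfin : ζ - 1 ∣ w + (∑ j ∈ range i, ζ ^ j) * y := by
    have h1 := (D.int_dvd _).mpr hd
    push_cast at h1
    have h2 := ((ha.add (hs.mul_right y)).add (hb.mul_left (i : R))).add h1
    convert h2 using 1
    ring
  rw [show x + ζ ^ i * y = (ζ - 1) * (w + (∑ j ∈ range i, ζ ^ j) * y) by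
    linear_combination hw - y * mul_geom_sum ζ i, sq]
  exact mul_dvd_mul_left _ hfin

variable [IsPrincipalIdealRing R]

/-- The key decomposition. -/
lemma factor (D : CycloData p ζ) {m : ℕ} {x y z : R} {ε : Rˣ} (hm : 1 ≤ m)
    (hy : ¬ ζ - 1 ∣ y) (hz : ¬ ζ - 1 ∣ z) (hxy : IsCoprime x y)
    (h2 : (ζ - 1) ^ 2 ∣ x + y)
    (h : x ^ p + y ^ p = ε * ((ζ - 1) ^ m * z) ^ p) :
    2 ≤ m ∧ ∃ (e₀ : Rˣ) (a₀ : R),
      ¬ ζ - 1 ∣ a₀ ∧ x + y = (ζ - 1) * (e₀ * ((ζ - 1) ^ (m - 1) * a₀) ^ p) ∧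
      ∃ (e : R → Rˣ) (a : R → R),
        (∀ μ ∈ (nthRootsFinset p (1 : R)).erase 1,
          ¬ ζ - 1 ∣ a μ ∧ x + μ * y = (ζ - 1) * (e μ * a μ ^ p)) ∧
        ∀ μ ∈ (nthRootsFinset p (1 : R)).erase 1, ∀ ν ∈ (nthRootsFinset p (1 : R)).erase 1,
          μ ≠ ν → IsCoprime (a μ) (a ν) := by
  classical
  have hl := D.lam_prime
  have hp0 : p ≠ 0 := D.prime.ne_zero
  obtain ⟨m, rfl⟩ : ∃ k, m = k + 1 := ⟨m - 1, by omega⟩
  simp only [Nat.add_sub_cancel]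
  obtain ⟨c, hc⟩ := h2
  set w₀ : R := (ζ - 1) * c with hw₀
  have hxy0 : x + y = (ζ - 1) * w₀ := by rw [hc, hw₀]; ring
  set M := (nthRootsFinset p (1 : R)).erase 1 with hM
  have h1mem : (1 : R) ∈ nthRootsFinset p (1 : R) :=
    (mem_nthRootsFinset D.prime.pos 1).mpr (one_pow p)
  have hpair := D.prim.nthRootsFinset_pairwise_associated_sub_one_sub_of_prime D.prime
  have hu : ∀ μ : R, ∃ u : Rˣ, μ ∈ M → μ - 1 = (ζ - 1) * u := by
    intro μ
    by_cases hμ : μ ∈ M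
    · obtain ⟨hne, hmem⟩ := Finset.mem_erase.mp hμ
      obtain ⟨u, hu⟩ := hpair hmem h1mem hne
      exact ⟨u, fun _ => hu.symm⟩
    · exact ⟨1, fun h => absurd h hμ⟩
  choose u hu using hu
  set Q : R → R := fun μ => w₀ + u μ * y with hQ
  have hQx : ∀ μ ∈ M, x + μ * y = (ζ - 1) * Q μ := by
    intro μ hμ
    simp only [hQ]
    linear_combination hxy0 + y * hu μ hμ
  have hQl : ∀ μ, ¬ ζ - 1 ∣ Q μ := fun μ hd => hy <| by
    simp only [hQ] at hd
    exact ((u μ).isUnit.dvd_mul_left).mp ((dvd_add_right (dvd_mul_right _ c)).mp hd)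
  have hQy : ∀ μ ∈ M, IsCoprime (Q μ) y := by
    intro μ hμ
    refine IsCoprime.of_mul_left_right (x := ζ - 1) ?_
    rw [← hQx μ hμ]
    exact hxy.add_mul_right_left μ
  have hQQ : ∀ μ ∈ M, ∀ ν ∈ M, μ ≠ ν → IsCoprime (Q μ) (Q ν) := by
    intro μ hμ ν hν hne
    obtain ⟨v, hv⟩ := hpair (Finset.mem_of_mem_erase hν) (Finset.mem_of_mem_erase hμ) hne.symm
    have hd : ((u ν : R) - u μ) = v := by
      refine mul_left_cancel₀ hl.ne_zero ?_
      linear_combination (-hu ν hν) + hu μ hμ - hv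
    have h1 : IsCoprime (Q μ) ((v : R) * y) :=
      (isCoprime_mul_unit_left_right v.isUnit (Q μ) y).mpr (hQy μ hμ)
    have := h1.add_mul_left_right 1
    convert this using 1
    simp only [hQ]
    linear_combination y * hd
  have hw₀Q : ∀ μ ∈ M, IsCoprime w₀ (Q μ) := by
    intro μ hμ
    have h1 : IsCoprime (Q μ) (-(u μ : R) * y) :=
      (isCoprime_mul_unit_left_right (u μ).isUnit.neg (Q μ) y).mpr (hQy μ hμ)
    have := (h1.add_mul_left_right 1).symm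
    convert this using 1
    simp only [hQ]
    ring
  have hcard : M.card = p - 1 := by
    rw [hM, Finset.card_erase_of_mem h1mem, D.prim.card_nthRootsFinset]
  have hprod : w₀ * ∏ μ ∈ M, Q μ = ε * (((ζ - 1) ^ p) ^ m * z ^ p) := by
    refine mul_left_cancel₀ (pow_ne_zero p hl.ne_zero) ?_
    calc (ζ - 1) ^ p * (w₀ * ∏ μ ∈ M, Q μ)
        = ((ζ - 1) * w₀) * ∏ μ ∈ M, ((ζ - 1) * Q μ) := by
          rw [Finset.prod_mul_distrib, Finset.prod_const, hcard]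
          conv_lhs => rw [← Nat.succ_pred_eq_of_pos D.prime.pos, pow_succ]
          rw [Nat.pred_eq_sub_one]; ring
      _ = (x + 1 * y) * ∏ μ ∈ M, (x + μ * y) := by
          rw [one_mul, hxy0, Finset.prod_congr rfl hQx]
      _ = x ^ p + y ^ p := by
          rw [D.prim.pow_add_pow_eq_prod_add_mul x y D.odd, hM,
            ← Finset.mul_prod_erase _ (fun μ => x + μ * y) h1mem]
      _ = _ := by rw [h, mul_pow, ← pow_mul, mul_comm (m + 1) p, pow_mul]; ring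
  have hPl : ¬ ζ - 1 ∣ ∏ μ ∈ M, Q μ := fun hd => by
    obtain ⟨μ, _, hμ⟩ := hl.exists_mem_finset_dvd hd
    exact hQl μ hμ
  have hm1 : 1 ≤ m := by
    by_contra hm0
    obtain rfl : m = 0 := by omega
    rw [pow_zero, one_mul] at hprod
    have : ζ - 1 ∣ ε * z ^ p := hprod ▸ (dvd_mul_right _ c).mul_right _
    exact hz (hl.dvd_of_dvd_pow ((ε.isUnit.dvd_mul_left).mp this))
  refine ⟨by omega, ?_⟩
  obtain ⟨w₁, hw₁⟩ : ((ζ - 1) ^ p) ^ m ∣ w₀ := by
    rw [← pow_mul]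
    refine hl.pow_dvd_of_dvd_mul_right _ hPl ?_
    rw [hprod, pow_mul]
    exact (dvd_mul_right _ _).mul_left _
  have hprod' : w₁ * ∏ μ ∈ M, Q μ = ε * z ^ p := by
    refine mul_left_cancel₀ (pow_ne_zero m (pow_ne_zero p hl.ne_zero)) ?_
    linear_combination hprod - (∏ μ ∈ M, Q μ) * hw₁
  have hpow : ∀ a b : R, IsCoprime a b → a * b = ε * z ^ p →
      ∃ (e : Rˣ) (d : R), a = e * d ^ p ∧ ¬ ζ - 1 ∣ d := by
    intro a b hab habe
    obtain ⟨d, v, hv⟩ := exists_associated_pow_of_mul_eq_pow' (k := p) (c := z)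
      ((isCoprime_mul_unit_left_left (ε⁻¹).isUnit a b).mpr hab)
      (by rw [mul_assoc, habe, ← mul_assoc, Units.inv_mul, one_mul])
    refine ⟨ε * v, d, ?_, fun hd => ?_⟩
    · calc a = ε * (((ε⁻¹ : Rˣ) : R) * a) := by rw [← mul_assoc, Units.mul_inv, one_mul]
        _ = _ := by rw [← hv]; push_cast; ring
    · have h1 : ζ - 1 ∣ (ε⁻¹ : Rˣ) * a :=
        hv ▸ (hd.trans (dvd_pow_self d hp0)).mul_right _
      have h2 : ζ - 1 ∣ ε * z ^ p := habe ▸ ((((ε⁻¹).isUnit).dvd_mul_left).mp h1).mul_right b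
      exact hz (hl.dvd_of_dvd_pow ((ε.isUnit.dvd_mul_left).mp h2))
  have hw₁Q : ∀ μ ∈ M, IsCoprime w₁ (Q μ) := fun μ hμ =>
    IsCoprime.of_mul_left_right (x := ((ζ - 1) ^ p) ^ m) (hw₁ ▸ hw₀Q μ hμ)
  obtain ⟨e₀, a₀, ha₀, ha₀l⟩ := hpow w₁ _ (IsCoprime.prod_right hw₁Q) hprod'
  refine ⟨e₀, a₀, ha₀l, ?_, ?_⟩
  · rw [hxy0, hw₁, ha₀, mul_pow, ← pow_mul, ← pow_mul, mul_comm m p]; ring
  have hQpow : ∀ μ : R, ∃ (e : Rˣ) (d : R), μ ∈ M → Q μ = e * d ^ p ∧ ¬ ζ - 1 ∣ d := by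
    intro μ
    by_cases hμ : μ ∈ M
    · obtain ⟨e, d, he⟩ := hpow (Q μ) (w₁ * ∏ ν ∈ M.erase μ, Q ν)
        (IsCoprime.mul_right (hw₁Q μ hμ).symm (IsCoprime.prod_right fun ν hν =>
          hQQ μ hμ ν (Finset.mem_of_mem_erase hν) (Finset.ne_of_mem_erase hν).symm))
        (by rw [← hprod', ← Finset.mul_prod_erase M Q hμ]; ring)
      exact ⟨e, d, fun _ => he⟩
    · exact ⟨1, 1, fun h => absurd h hμ⟩
  choose e a ha using hQpow
  refine ⟨e, a, fun μ hμ => ⟨(ha μ hμ).2, ?_⟩, fun μ hμ ν hν hne => ?_⟩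
  · rw [hQx μ hμ, (ha μ hμ).1]
  · have := hQQ μ hμ ν hν hne
    rw [(ha μ hμ).1, (ha ν hν).1] at this
    exact (IsCoprime.pow_iff D.prime.pos D.prime.pos).mp this.of_mul_left_right.of_mul_right_right

/-- One step of the descent. -/
lemma step (D : CycloData p ζ) {m : ℕ} {x y z : R} {ε : Rˣ} (hm : 1 ≤ m)
    (hy : ¬ ζ - 1 ∣ y) (hz : ¬ ζ - 1 ∣ z) (hxy : IsCoprime x y)
    (h2 : (ζ - 1) ^ 2 ∣ x + y)
    (h : x ^ p + y ^ p = ε * ((ζ - 1) ^ m * z) ^ p) :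
    2 ≤ m ∧ ∃ (x' y' z' : R) (ε' : Rˣ),
      ¬ ζ - 1 ∣ y' ∧ ¬ ζ - 1 ∣ z' ∧ IsCoprime x' y' ∧
      x' ^ p + y' ^ p = ε' * ((ζ - 1) ^ (m - 1) * z') ^ p := by
  obtain ⟨hm2, e₀, a₀, ha₀, h0, e, a, he, hcop⟩ := D.factor hm hy hz hxy h2 h
  have hp1 : 1 < p := D.prime.one_lt
  have hl := D.lam_prime
  refine ⟨hm2, ?_⟩
  -- the two roots `ζ` and `ζ⁻¹`
  set ζ' : R := ζ ^ (p - 1) with hζ'
  have hmul : ζ * ζ' = 1 := by
    rw [hζ', ← pow_succ', Nat.sub_add_cancel hp1.le, D.prim.pow_eq_one]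
  have hmem : ∀ i, 0 < i → i < p → ζ ^ i ∈ (nthRootsFinset p (1 : R)).erase 1 := by
    intro i hi hip
    refine Finset.mem_erase.mpr ⟨D.prim.pow_ne_one_of_pos_of_lt hi.ne' hip, ?_⟩
    rw [mem_nthRootsFinset D.prime.pos, ← pow_mul, mul_comm, pow_mul, D.prim.pow_eq_one, one_pow]
  have hζmem : ζ ∈ (nthRootsFinset p (1 : R)).erase 1 := by
    simpa using hmem 1 one_pos hp1
  have hζ'mem : ζ' ∈ (nthRootsFinset p (1 : R)).erase 1 :=
    hmem (p - 1) (by omega) (by omega)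
  have hne : ζ ≠ ζ' := by
    intro hEq
    have h2' : ζ ^ 2 = 1 := by rw [sq]; nth_rw 2 [hEq]; exact hmul
    have := Nat.le_of_dvd (by norm_num) (D.prim.dvd_of_pow_eq_one 2 h2')
    have hodd := D.odd
    interval_cases p
    exact absurd hodd (by decide)
  obtain ⟨hA₁, hB₁⟩ := he ζ hζmem
  obtain ⟨hA₂, hB₂⟩ := he ζ' hζ'mem
  have hu1 : IsUnit (1 + ζ) := by
    have h2c : (2 : ℕ).Coprime p :=
      Nat.coprime_two_left.mpr D.odd
    have := D.prim.geom_sum_isUnit hp1 h2c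
    simpa [Finset.sum_range_succ] using this
  have hζu : IsUnit ζ := IsUnit.of_mul_eq_one _ hmul
  have hrel : (e ζ : R) * a ζ ^ p + ζ * e ζ' * a ζ' ^ p =
      (1 + ζ) * e₀ * ((ζ - 1) ^ (m - 1) * a₀) ^ p := by
    refine mul_left_cancel₀ hl.ne_zero ?_
    linear_combination (-hB₁) - ζ * hB₂ + (1 + ζ) * h0 + y * hmul
  set δ : Rˣ := (e ζ)⁻¹ * hζu.unit * e ζ' with hδ
  set ε' : Rˣ := (e ζ)⁻¹ * hu1.unit * e₀ with hε'
  have hnew : a ζ ^ p + δ * a ζ' ^ p = ε' * ((ζ - 1) ^ (m - 1) * a₀) ^ p := by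
    refine mul_left_cancel₀ (e ζ).isUnit.ne_zero ?_
    simp only [hδ, hε', Units.val_mul, IsUnit.unit_spec]
    have hinv := (e ζ).mul_inv
    linear_combination hrel + (ζ * e ζ' * a ζ' ^ p
      - (1 + ζ) * e₀ * ((ζ - 1) ^ (m - 1) * a₀) ^ p) * hinv
  have hcong : ∃ n : ℤ, (p : R) ∣ (δ : R) - n := by
    obtain ⟨n₁, -, hn₁⟩ := D.exists_pow_congr (a ζ)
    obtain ⟨n₂, hn₂', hn₂⟩ := D.exists_pow_congr (a ζ')
    have hn₂p : ¬ (p : ℤ) ∣ n₂ ^ p := fun hd => hA₂ <| by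
      have := hn₂'.add ((D.int_dvd n₂).mpr
        ((Nat.prime_iff_prime_int.mp D.prime).dvd_of_dvd_pow hd))
      simpa using this
    obtain ⟨s, t, hst⟩ := (Nat.prime_iff_prime_int.mp D.prime).coprime_iff_not_dvd.mpr hn₂p
    have hst' : (s : R) * p + t * (n₂ : R) ^ p = 1 := by
      have := congrArg (Int.cast : ℤ → R) hst
      push_cast at this
      exact this
    have hd : (p : R) ∣ (n₁ : R) ^ p + δ * (n₂ : R) ^ p := by
      have h3 : (p : R) ∣ ε' * ((ζ - 1) ^ (m - 1) * a₀) ^ p := by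
        rw [mul_pow, ← pow_mul]
        refine Dvd.dvd.mul_left (Dvd.dvd.mul_right (D.p_dvd_lam_pow.trans (pow_dvd_pow _ ?_)) _) _
        exact Nat.le_mul_of_pos_left p (by omega)
      rw [← hnew] at h3
      have := (h3.sub hn₁).sub (hn₂.mul_left (δ : R))
      convert this using 1
      ring
    refine ⟨-(n₁ ^ p * t), ?_⟩
    have := (hd.mul_right (t : R)).add ((dvd_mul_left (p : R) (s : R)).mul_left (δ : R))
    convert this using 1
    push_cast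
    linear_combination (-(δ : R)) * hst'
  obtain ⟨v, hv⟩ := D.unit_lemma δ hcong
  refine ⟨a ζ, v * a ζ', a₀, ε', ?_, ha₀, ?_, ?_⟩
  · exact fun hd => hA₂ ((v.isUnit.dvd_mul_left).mp hd)
  · exact (isCoprime_mul_unit_left_right v.isUnit _ _).mpr (hcop ζ hζmem ζ' hζ'mem hne)
  · rw [← hnew, ← hv, mul_pow, Units.val_pow_eq_pow_val]

/-- There is no solution of the generalised second case. -/
theorem no_solution (D : CycloData p ζ) (m : ℕ) (x y z : R) (ε : Rˣ) (hm : 1 ≤ m)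
    (hy : ¬ ζ - 1 ∣ y) (hz : ¬ ζ - 1 ∣ z) (hxy : IsCoprime x y) :
    x ^ p + y ^ p ≠ ε * ((ζ - 1) ^ m * z) ^ p := by
  induction m using Nat.strong_induction_on generalizing x y z ε with
  | _ m ih =>
    intro h
    have hs : ζ - 1 ∣ x + y := by
      have h1 : ζ - 1 ∣ ε * ((ζ - 1) ^ m * z) ^ p :=
        (((dvd_pow_self _ (by omega)).mul_right z).trans
          (dvd_pow_self _ D.prime.ne_zero)).mul_left _
      rw [← h] at h1
      have := (h1.sub (D.lam_dvd_pow_sub_self x)).sub (D.lam_dvd_pow_sub_self y)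
      convert this using 1
      ring
    obtain ⟨i, hi⟩ := D.exists_lam_sq_dvd hy hs
    have hu : IsUnit (ζ ^ i) := (D.prim.isUnit D.prime.ne_zero).pow i
    obtain ⟨hm2, x', y', z', ε', hy', hz', hxy', h'⟩ :=
      D.step (ε := ε) (x := x) (y := ζ ^ i * y) hm
        (fun hd => hy ((hu.dvd_mul_left).mp hd)) hz
        ((isCoprime_mul_unit_left_right hu _ _).mpr hxy) hi
        (by rw [← h, mul_pow, ← pow_mul, mul_comm i p, pow_mul, D.prim.pow_eq_one, one_pow,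
          one_mul])
    exact ih (m - 1) (by omega) x' y' z' ε' (by omega) hy' hz' hxy' h'

end CycloData

end FermatAgent.Regular
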