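import Mathlib

/-!
Sophie Germain's theorem: first case of Fermat's equation for an exponent with an auxiliary prime.
-/

set_option autoImplicit false

open Finset

namespace FermatAgent.Regular

/-- `q` is an auxiliary prime for the exponent `p`. -/
structure AuxPrime (p q : ℕ) : Prop where
  sum_ne_zero : ∀ x y z : ZMod q, x ≠ 0 → y ≠ 0 → z ≠ 0 → x ^ p + y ^ p + z ^ p ≠ 0
  not_pow : ∀ x : ZMod q, x ^ p ≠ (p : ZMod q)

lemma auxPrime_of_residues (p q : ℕ) (S : List (ZMod q))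
    (h1 : ∀ x : ZMod q, x ≠ 0 → x ^ p ∈ S)
    (h2 : ∀ a ∈ S, ∀ b ∈ S, ∀ c ∈ S, a + b + c ≠ 0)
    (h3 : ∀ x : ZMod q, x ^ p ≠ (p : ZMod q)) : AuxPrime p q :=
  ⟨fun x y z hx hy hz => h2 _ (h1 x hx) _ (h1 y hy) _ (h1 z hz), h3⟩

lemma auxPrime_five : AuxPrime 5 11 :=
  auxPrime_of_residues 5 11 [1, -1] (by decide) (by decide) (by decide)

lemma auxPrime_seven : AuxPrime 7 29 :=
  auxPrime_of_residues 7 29 [1, -1, 12, -12] (by decide) (by decide) (by decide)

lemma auxPrime_eleven : AuxPrime 11 23 :=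
  auxPrime_of_residues 11 23 [1, -1] (by decide) (by decide) (by decide)

set_option maxRecDepth 4000 in
lemma auxPrime_thirteen : AuxPrime 13 53 :=
  auxPrime_of_residues 13 53 [1, -1, 23, -23] (by decide) (by decide) (by decide)

/-- The cofactor of `y + z` in `y ^ p + z ^ p`. -/
def germainCofactor (p : ℕ) (y z : ℤ) : ℤ :=
  ∑ i ∈ range p, y ^ i * (-z) ^ (p - 1 - i)

variable {p : ℕ}

lemma germain_factor (hp : p.Prime) (hodd : Odd p) {x y z : ℤ}
    (h : x ^ p + y ^ p + z ^ p = 0) (hyz : IsCoprime y z) (hpx : ¬ (p : ℤ) ∣ x) :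
    ∃ A T : ℤ, y + z = A ^ p ∧ germainCofactor p y z = T ^ p := by
  have hmul : (y + z) * germainCofactor p y z = (-x) ^ p := by
    have hg := geom_sum₂_mul y (-z) p
    rw [hodd.neg_pow] at hg ⊢
    rw [germainCofactor, mul_comm]
    linear_combination hg + h
  have hpp : Prime (p : ℤ) := Nat.prime_iff_prime_int.mp hp
  have hps : ¬ (p : ℤ) ∣ y + z := by
    intro hd
    have : (p : ℤ) ∣ (-x) ^ p := hmul ▸ hd.mul_right _
    exact hpx (dvd_neg.mp (hpp.dvd_of_dvd_pow this))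
  have hd : (y + z) ∣ germainCofactor p y z - p * y ^ (p - 1) := by
    have hxy : y + z ∣ y - (-z) := by rw [sub_neg_eq_add]
    have := geom_sum₂_self y p
    rw [← this, germainCofactor, ← Finset.sum_sub_distrib]
    refine Finset.dvd_sum fun i _ => ?_
    rw [← mul_sub]
    refine Dvd.dvd.mul_left ?_ _
    exact (dvd_sub_comm.mp hxy).trans (sub_dvd_pow_sub_pow _ _ _)
  have hc : IsCoprime (y + z) (germainCofactor p y z) := by
    obtain ⟨k, hk⟩ := hd
    have h1 : IsCoprime (y + z) ((p : ℤ) * y ^ (p - 1)) := by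
      refine IsCoprime.mul_right ((hpp.coprime_iff_not_dvd.mpr hps).symm) ?_
      refine IsCoprime.pow_right ?_
      simpa [add_comm] using (hyz.symm.add_mul_left_left 1)
    have := h1.add_mul_left_right k
    rwa [show germainCofactor p y z = (p : ℤ) * y ^ (p - 1) + (y + z) * k by
      linear_combination hk]
  obtain ⟨A, hA⟩ := Int.eq_pow_of_mul_eq_pow_odd_left hc hodd hmul
  obtain ⟨T, hT⟩ := Int.eq_pow_of_mul_eq_pow_odd_left hc.symm hodd
    (show germainCofactor p y z * (y + z) = (-x) ^ p by rw [mul_comm]; exact hmul)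
  exact ⟨A, T, hA, hT⟩

lemma germain_core (hp : p.Prime) (hodd : Odd p) {q : ℕ} [Fact q.Prime] (hq : AuxPrime p q)
    {x y z : ℤ} (h : x ^ p + y ^ p + z ^ p = 0)
    (hxy : IsCoprime x y) (hyz : IsCoprime y z) (hzx : IsCoprime z x)
    (hx : ¬ (p : ℤ) ∣ x) (hy : ¬ (p : ℤ) ∣ y) (hz : ¬ (p : ℤ) ∣ z)
    (hqx : (x : ZMod q) = 0) : False := by
  obtain ⟨A, T, hA, hT⟩ := germain_factor hp hodd h hyz hx
  obtain ⟨B, -, hB, -⟩ := germain_factor hp hodd (x := y) (y := z) (z := x)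
    (by linear_combination h) hzx hy
  obtain ⟨C, -, hC, -⟩ := germain_factor hp hodd (x := z) (y := x) (z := y)
    (by linear_combination h) hxy hz
  have hA' : (y : ZMod q) + z = (A : ZMod q) ^ p := by exact_mod_cast congrArg (Int.cast) hA
  have hB' : (z : ZMod q) + x = (B : ZMod q) ^ p := by exact_mod_cast congrArg (Int.cast) hB
  have hC' : (x : ZMod q) + y = (C : ZMod q) ^ p := by exact_mod_cast congrArg (Int.cast) hC
  rw [hqx] at hB' hC'
  rw [add_zero] at hB'
  rw [zero_add] at hC'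
  have hzero : ∀ {a b : ℤ}, IsCoprime a b → (a : ZMod q) = 0 → (b : ZMod q) = 0 → False := by
    rintro a b ⟨u, v, huv⟩ ha hb
    simpa [ha, hb] using congrArg (Int.cast : ℤ → ZMod q) huv
  have hB0 : (B : ZMod q) ≠ 0 := fun h0 => hzero hzx (by rw [hB', h0, zero_pow hp.ne_zero]) hqx
  have hC0 : (C : ZMod q) ≠ 0 := fun h0 => hzero hxy hqx (by rw [hC', h0, zero_pow hp.ne_zero])
  have hA0 : (A : ZMod q) = 0 := by
    by_contra h0
    refine hq.sum_ne_zero _ _ _ hB0 hC0 (neg_ne_zero.mpr h0) ?_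
    rw [hodd.neg_pow, ← hA', ← hB', ← hC']
    ring
  have hzy : (z : ZMod q) = -(y : ZMod q) := by
    rw [hA0, zero_pow hp.ne_zero] at hA'
    linear_combination hA'
  have hTy : (T : ZMod q) ^ p = (p : ZMod q) * (y : ZMod q) ^ (p - 1) := by
    rw [← geom_sum₂_self, ← Int.cast_pow, ← hT, germainCofactor]
    push_cast
    simp [hzy]
  have hy0 : (y : ZMod q) ≠ 0 := fun h0 => hzero hxy hqx h0
  refine hq.not_pow ((T : ZMod q) * ((C : ZMod q) ^ (p - 1))⁻¹) ?_
  have hCp : ((C : ZMod q) ^ (p - 1)) ^ p = (y : ZMod q) ^ (p - 1) := by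
    rw [hC', ← pow_mul, ← pow_mul, mul_comm]
  rw [mul_pow, inv_pow, hCp, hTy, mul_assoc, mul_inv_cancel₀ (pow_ne_zero _ hy0), mul_one]

/-- Sophie Germain: the first case. -/
theorem germain (hp : p.Prime) (hodd : Odd p) {q : ℕ} [Fact q.Prime] (hq : AuxPrime p q)
    {x y z : ℤ} (h : x ^ p + y ^ p + z ^ p = 0)
    (hxy : IsCoprime x y) (hyz : IsCoprime y z) (hzx : IsCoprime z x) :
    (p : ℤ) ∣ x ∨ (p : ℤ) ∣ y ∨ (p : ℤ) ∣ z := by
  by_contra hne
  simp only [not_or] at hne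
  obtain ⟨hx, hy, hz⟩ := hne
  by_cases h1 : (x : ZMod q) = 0
  · exact germain_core hp hodd hq h hxy hyz hzx hx hy hz h1
  by_cases h2 : (y : ZMod q) = 0
  · exact germain_core hp hodd hq (x := y) (y := z) (z := x) (by linear_combination h)
      hyz hzx hxy hy hz hx h2
  by_cases h3 : (z : ZMod q) = 0
  · exact germain_core hp hodd hq (x := z) (y := x) (z := y) (by linear_combination h)
      hzx hxy hyz hz hx hy h3
  refine hq.sum_ne_zero _ _ _ h1 h2 h3 ?_
  exact_mod_cast congrArg (Int.cast : ℤ → ZMod q) h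

end FermatAgent.Regular
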