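import Mathlib
import Fermat.Prelude.Def_FLTPrelim_FreyPackage
import Fermat.Agent.Regular.Interface
import Fermat.Agent.Regular.SophieGermain
import Fermat.Agent.Regular.Descent

/-!
Fermat's equation has no solutions for a prime exponent with an auxiliary prime, a principal
cyclotomic ring of integers and Kummer's unit lemma.
-/

set_option autoImplicit false

open NumberField

namespace FermatAgent.Regular

variable {p : ℕ}

/-- The ring of integers of a cyclotomic field of prime level satisfies `CycloData`. -/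
lemma cycloData_ringOfIntegers [hp : Fact p.Prime] (hodd : Odd p) {K : Type*} [Field K]
    [NumberField K] [IsCyclotomicExtension {p} ℚ K] {ζ : K} (hζ : IsPrimitiveRoot ζ p)
    (hU : KummerUnitLemma p (𝓞 K)) : CycloData p hζ.toInteger where
  prime := hp.out
  odd := hodd
  prim := hζ.toInteger_isPrimitiveRoot
  lam_prime := hζ.zeta_sub_one_prime'
  residue x := by
    have hx : x ∈ Algebra.adjoin ℤ ({hζ.toInteger} : Set (𝓞 K)) := by
      rw [IsCyclotomicExtension.adjoin_primitive_root_eq_top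
        (n := p) hζ.toInteger_isPrimitiveRoot]
      exact Algebra.mem_top
    induction hx using Algebra.adjoin_induction with
    | mem y hy => rcases hy with rfl; exact ⟨1, by simp⟩
    | algebraMap n => exact ⟨n, by simp⟩
    | add y z _ _ hy hz =>
      obtain ⟨a, ha⟩ := hy
      obtain ⟨b, hb⟩ := hz
      refine ⟨a + b, ?_⟩
      have := ha.add hb
      convert this using 1
      push_cast
      ring
    | mul y z _ _ hy hz =>
      obtain ⟨a, ha⟩ := hy
      obtain ⟨b, hb⟩ := hz
      refine ⟨a * b, ?_⟩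
      have := (ha.mul_right z).add (hb.mul_left (a : 𝓞 K))
      convert this using 1
      push_cast
      ring
  int_dvd _ := IsCyclotomicExtension.Rat.zeta_sub_one_dvd_intCast_iff' p hζ
  assoc_p := IsCyclotomicExtension.Rat.associated_zeta_sub_one_pow_prime p hζ
  unit_lemma := hU

/-- The second case. -/
lemma case_two [hp : Fact p.Prime] (hodd : Odd p) (hin : RegularInputs p) {x y z : ℤ}
    (h : x ^ p + y ^ p = z ^ p) (hxy : IsCoprime x y) (hy : ¬ (p : ℤ) ∣ y)
    (hz : (p : ℤ) ∣ z) (hz0 : z ≠ 0) : False := by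
  obtain ⟨hpid, hU⟩ := hin
  have : NeZero (p : ℚ) := ⟨by exact_mod_cast hp.out.ne_zero⟩
  have : IsCyclotomicExtension {p} ℚ (CyclotomicField p ℚ) :=
    CyclotomicField.isCyclotomicExtension p ℚ
  obtain ⟨ζ, hζ⟩ : ∃ ζ : CyclotomicField p ℚ, IsPrimitiveRoot ζ p :=
    ⟨_, IsCyclotomicExtension.zeta_spec p ℚ (CyclotomicField p ℚ)⟩
  have D := cycloData_ringOfIntegers hodd hζ hU
  obtain ⟨m, w, hw, hzw⟩ :=
    WfDvdMonoid.max_power_factor (a₀ := (z : 𝓞 (CyclotomicField p ℚ)))
      (Int.cast_ne_zero.mpr hz0) D.lam_prime.irreducible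
  have hm : 1 ≤ m := by
    by_contra hm0
    obtain rfl : m = 0 := by omega
    rw [pow_zero, one_mul] at hzw
    exact hw (hzw ▸ (D.int_dvd z).mpr hz)
  have hcop : IsCoprime (x : 𝓞 (CyclotomicField p ℚ)) (y : 𝓞 (CyclotomicField p ℚ)) :=
    by simpa using hxy.map (Int.castRingHom (𝓞 (CyclotomicField p ℚ)))
  refine D.no_solution m _ (y : 𝓞 (CyclotomicField p ℚ)) w 1 hm
    (fun hd => hy ((D.int_dvd y).mp hd)) hw hcop ?_
  rw [Units.val_one, one_mul, ← hzw]
  exact_mod_cast congrArg (Int.cast : ℤ → 𝓞 (CyclotomicField p ℚ)) h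

/-- Fermat's equation in coprime nonzero integers has no solutions. -/
theorem fermat_coprime [hp : Fact p.Prime] (hodd : Odd p) {q : ℕ} [Fact q.Prime]
    (hq : AuxPrime p q) (hin : RegularInputs p) {a b c : ℤ} (ha : a ≠ 0) (hb : b ≠ 0)
    (hc : c ≠ 0) (h : a ^ p + b ^ p = c ^ p) (hab : IsCoprime a b) (hac : IsCoprime a c)
    (hbc : IsCoprime b c) : False := by
  have hpp : Prime (p : ℤ) := Nat.prime_iff_prime_int.mp hp.out
  have hnd : ∀ {u v : ℤ}, IsCoprime u v → (p : ℤ) ∣ u → ¬ (p : ℤ) ∣ v := fun huv hu hv =>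
    hpp.not_isUnit (huv.isUnit_of_dvd' hu hv)
  rcases germain hp.out hodd hq (x := a) (y := b) (z := -c)
      (by rw [hodd.neg_pow]; linear_combination h) hab hbc.neg_right hac.symm.neg_left with
    hd | hd | hd
  · exact case_two hodd hin (x := c) (y := -b) (z := a)
      (by rw [hodd.neg_pow]; linear_combination -h) hbc.symm.neg_right
      (fun hd' => hnd hab hd (dvd_neg.mp hd')) hd ha
  · exact case_two hodd hin (x := c) (y := -a) (z := b)
      (by rw [hodd.neg_pow]; linear_combination -h) hac.symm.neg_right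
      (fun hd' => hnd hab (dvd_neg.mp hd') hd) hd hb
  · exact case_two hodd hin h hab (fun hd' => hnd hbc hd' (dvd_neg.mp hd)) (dvd_neg.mp hd) hc

/-- No Frey package has an exponent satisfying the hypotheses. -/
theorem no_freyPackage (P : FreyPackage) {q : ℕ} [Fact q.Prime]
    (hq : AuxPrime p q) (hin : ∀ [NeZero p], RegularInputs p)
    (hPp : P.p = p) : False := by
  subst hPp
  have : Fact P.p.Prime := ⟨P.pp⟩
  exact fermat_coprime P.hp_odd hq hin P.ha0 P.hb0 P.hc0 P.hFLT
    ((gcd_isUnit_iff _ _).mp (P.hgcdab ▸ isUnit_one))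
    ((gcd_isUnit_iff _ _).mp (P.hgcdac ▸ isUnit_one))
    ((gcd_isUnit_iff _ _).mp (P.hgcdbc ▸ isUnit_one))

end FermatAgent.Regular
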